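/-
S59, piece CAR (helper63), algebra part: **Carayol's lemma** in the form of Skolem–Noether.

`R` a local ring, `S` an `R`-algebra, `f₀ f₁ : S →ₐ[R] Mₙ(R)` with `f₀` surjective and
`tr f₁(x) = tr f₀(x)` for all `x`.  Then there is `g ∈ GLₙ(R)` with `g f₀(x) = f₁(x) g` for all `x`.

Proof.  Choose `x i j ∈ S` with `f₀ (x i j) = E_{ij}` and put `F i j = f₁ (x i j)`.
* The operator `Θ N = (tr (N F_{lk}))_{kl}` of `Mₙ(R)` is surjective (`Θ (Σ M_{ij} F_{ij}) = M`), hence
  injective (Orzech); so `f₀ y = 0 ⇒ Θ (f₁ y) = 0 ⇒ f₁ y = 0` (`s59car_kernel`).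
* Therefore the `F i j` are matrix units and `f₁ y = Σ (f₀ y)_{ij} F_{ij}`.
* `tr F_{i₀i₀} = 1`, so a diagonal entry `(F_{i₀i₀})_{aa}` is a unit; `g = Σ_i F_{i i₀} E_{a i}` has the
  left inverse `c⁻¹ Σ_j E_{j a} F_{i₀ j}` and `F_{kl} g = g E_{kl}`.
-/
import Mathlib

set_option autoImplicit false
set_option linter.style.longLine false
set_option linter.unusedVariables false
set_option linter.unusedSectionVars false

namespace Fermat.Agent.S59

open Matrix

section CarAlg

variable {R : Type*} [CommRing R] {n : Type*} [Fintype n] [DecidableEq n]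
variable {S : Type*} [Ring S] [Algebra R S]

/-- the operator `N ↦ (tr (N F_{lk}))_{kl}` -/
def s59carTheta (F : n → n → Matrix n n R) : Matrix n n R →ₗ[R] Matrix n n R where
  toFun N := Matrix.of fun k l => (N * F l k).trace
  map_add' M N := by
    ext k l
    simp only [Matrix.of_apply, Matrix.add_apply, add_mul, Matrix.trace_add]
  map_smul' c N := by
    ext k l
    simp only [Matrix.of_apply, Matrix.smul_apply, Matrix.smul_mul, Matrix.trace_smul,
      RingHom.id_apply]

theorem s59carTheta_apply (F : n → n → Matrix n n R) (N : Matrix n n R) (k l : n) :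
    s59carTheta F N k l = (N * F l k).trace := rfl

/-- the trace of a product of two matrix units -/
theorem s59car_trace_single_mul_single (i j k l : n) :
    (Matrix.single i j (1 : R) * Matrix.single k l (1 : R)).trace =
      if j = k ∧ l = i then 1 else 0 := by
  by_cases h : j = k
  · subst h
    rw [Matrix.single_mul_single_same, mul_one]
    by_cases h2 : l = i
    · subst h2
      rw [Matrix.trace_single_eq_same, if_pos ⟨rfl, rfl⟩]
    · rw [Matrix.trace_single_eq_of_ne _ _ _ (Ne.symm h2), if_neg (fun hh => h2 hh.2)]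
  · rw [Matrix.single_mul_single_of_ne _ _ _ _ h, Matrix.trace_zero, if_neg (fun hh => h hh.1)]

/-- **the kernel of `f₀` is contained in the kernel of `f₁`** -/
theorem s59car_kernel (f₀ f₁ : S →ₐ[R] Matrix n n R) (hsurj : Function.Surjective f₀)
    (htr : ∀ x, (f₁ x).trace = (f₀ x).trace) (y : S) (hy : f₀ y = 0) : f₁ y = 0 := by
  classical
  choose x hx using fun i j => hsurj (Matrix.single i j (1 : R))
  have hgram : ∀ i j k l, (f₁ (x i j) * f₁ (x k l)).trace = if j = k ∧ l = i then 1 else 0 := by
    intro i j k l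
    rw [← map_mul, htr, map_mul, hx, hx, s59car_trace_single_mul_single]
  have hΘsurj : Function.Surjective (s59carTheta (fun i j => f₁ (x i j))) := by
    intro M
    refine ⟨∑ i, ∑ j, M i j • f₁ (x i j), ?_⟩
    ext k l
    rw [s59carTheta_apply, Finset.sum_mul, Matrix.trace_sum]
    have h1 : ∀ i, ((∑ j, M i j • f₁ (x i j)) * f₁ (x l k)).trace =
        if i = k then M k l else 0 := by
      intro i
      rw [Finset.sum_mul, Matrix.trace_sum]
      have h2 : ∀ j, ((M i j • f₁ (x i j)) * f₁ (x l k)).trace =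
          if j = l then (if i = k then M i j else 0) else 0 := by
        intro j
        rw [Matrix.smul_mul, Matrix.trace_smul, hgram, smul_eq_mul]
        by_cases h3 : j = l
        · by_cases h4 : k = i
          · rw [if_pos ⟨h3, h4⟩, if_pos h3, if_pos h4.symm, mul_one]
          · rw [if_neg (fun hh => h4 hh.2), if_pos h3, if_neg (fun hh => h4 hh.symm), mul_zero]
        · rw [if_neg (fun hh => h3 hh.1), if_neg h3, mul_zero]
      rw [Finset.sum_congr rfl (fun j _ => h2 j), Finset.sum_ite_eq' Finset.univ l, 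
        if_pos (Finset.mem_univ _)]
      by_cases h4 : i = k
      · subst h4
        simp only [if_true]
      · simp only [if_neg h4]
    rw [Finset.sum_congr rfl (fun i _ => h1 i), Finset.sum_ite_eq' Finset.univ k,
      if_pos (Finset.mem_univ _)]
  have hΘinj : Function.Injective (s59carTheta (fun i j => f₁ (x i j))) :=
    OrzechProperty.injective_of_surjective_endomorphism _ hΘsurj
  apply hΘinj
  rw [map_zero]
  ext k l
  rw [s59carTheta_apply, ← map_mul, htr, map_mul, hy, zero_mul, Matrix.trace_zero]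
  rfl

/-- **Carayol's lemma / Skolem–Noether over a local ring.** -/
theorem s59car_alg_conj [IsLocalRing R] (i₀ : n) (f₀ f₁ : S →ₐ[R] Matrix n n R)
    (hsurj : Function.Surjective f₀) (htr : ∀ x, (f₁ x).trace = (f₀ x).trace) :
    ∃ g : Matrix n n R, IsUnit g ∧ ∀ y, g * f₀ y = f₁ y * g := by
  classical
  have hker := s59car_kernel f₀ f₁ hsurj htr
  have hdep : ∀ y y', f₀ y = f₀ y' → f₁ y = f₁ y' := by
    intro y y' h
    have h1 := hker (y - y') (by rw [map_sub, h, sub_self])
    rwa [map_sub, sub_eq_zero] at h1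
  choose x hx using fun i j => hsurj (Matrix.single i j (1 : R))
  have hFmul_same : ∀ i j l, f₁ (x i j) * f₁ (x j l) = f₁ (x i l) := by
    intro i j l
    rw [← map_mul]
    apply hdep
    rw [map_mul, hx, hx, hx, Matrix.single_mul_single_same, mul_one]
  have hFmul_ne : ∀ i j k l, j ≠ k → f₁ (x i j) * f₁ (x k l) = 0 := by
    intro i j k l h
    rw [← map_mul, ← map_zero f₁]
    apply hdep
    rw [map_mul, hx, hx, map_zero, Matrix.single_mul_single_of_ne _ _ _ _ h]
  have hexp : ∀ y, f₁ y = ∑ i, ∑ j, (f₀ y) i j • f₁ (x i j) := by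
    intro y
    have h1 : f₀ y = f₀ (∑ i, ∑ j, (f₀ y) i j • x i j) := by
      rw [map_sum]
      conv_lhs => rw [Matrix.matrix_eq_sum_single (f₀ y)]
      refine Finset.sum_congr rfl fun i _ => ?_
      rw [map_sum]
      refine Finset.sum_congr rfl fun j _ => ?_
      rw [map_smul, hx, Matrix.smul_single, smul_eq_mul, mul_one]
    rw [hdep _ _ h1, map_sum]
    refine Finset.sum_congr rfl fun i _ => ?_
    rw [map_sum]
    refine Finset.sum_congr rfl fun j _ => ?_
    rw [map_smul]
  -- a unit on the diagonal of `F i₀ i₀`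
  have htr1 : (f₁ (x i₀ i₀)).trace = 1 := by
    rw [htr, hx, Matrix.trace_single_eq_same]
  have hunit : ∃ a, IsUnit (f₁ (x i₀ i₀) a a) := by
    by_contra hne
    have hmem : (f₁ (x i₀ i₀)).trace ∈ IsLocalRing.maximalIdeal R := by
      rw [Matrix.trace]
      refine Ideal.sum_mem _ fun a _ => ?_
      exact (IsLocalRing.mem_maximalIdeal _).2 (fun ha => hne ⟨a, ha⟩)
    rw [htr1] at hmem
    exact (IsLocalRing.mem_maximalIdeal _).1 hmem isUnit_one
  obtain ⟨a, u, hu⟩ := hunit
  obtain ⟨g, hg⟩ : ∃ g : Matrix n n R, g = ∑ i, f₁ (x i i₀) * Matrix.single a i (1 : R) :=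
    ⟨_, rfl⟩
  obtain ⟨h, hh⟩ : ∃ h : Matrix n n R, h = ∑ j, Matrix.single j a (1 : R) * f₁ (x i₀ j) :=
    ⟨_, rfl⟩
  have hFg : ∀ k l : n, f₁ (x k l) * g = f₁ (x k i₀) * Matrix.single a l (1 : R) := by
    intro k l
    rw [hg, Finset.mul_sum, Finset.sum_eq_single l]
    · rw [← mul_assoc, hFmul_same]
    · intro i _ hil
      rw [← mul_assoc, hFmul_ne k l i i₀ (Ne.symm hil), zero_mul]
    · intro hl
      exact absurd (Finset.mem_univ l) hl
  have hgE : ∀ k l : n, g * Matrix.single k l (1 : R) =
      f₁ (x k i₀) * Matrix.single a l (1 : R) := by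
    intro k l
    rw [hg, Finset.sum_mul, Finset.sum_eq_single k]
    · rw [mul_assoc, Matrix.single_mul_single_same, mul_one]
    · intro i _ hik
      rw [mul_assoc, Matrix.single_mul_single_of_ne _ _ _ _ hik, mul_zero]
    · intro hk
      exact absurd (Finset.mem_univ k) hk
  have hhg : h * g = (u : R) • (1 : Matrix n n R) := by
    have h1 : ∀ j, Matrix.single j a (1 : R) * f₁ (x i₀ j) * g =
        Matrix.single j j (u : R) := by
      intro j
      rw [mul_assoc, hFg, ← mul_assoc, Matrix.single_mul_mul_single, one_mul, mul_one, hu]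
    rw [hh, Finset.sum_mul, Finset.sum_congr rfl (fun j _ => h1 j)]
    ext k l
    rw [Matrix.sum_apply, Matrix.smul_apply, smul_eq_mul, Matrix.one_apply]
    by_cases hkl : k = l
    · subst hkl
      rw [if_pos rfl, mul_one, Finset.sum_eq_single k]
      · rw [Matrix.single_apply_same]
      · intro j _ hjk
        rw [Matrix.single_apply_of_ne]
        exact fun hh => hjk hh.1
      · intro hk
        exact absurd (Finset.mem_univ k) hk
    · rw [if_neg hkl, mul_zero]
      refine Finset.sum_eq_zero fun j _ => ?_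
      rw [Matrix.single_apply_of_ne]
      exact fun hh => hkl (hh.1.symm.trans hh.2)
  refine ⟨g, ?_, fun y => ?_⟩
  · have hleft : (((u⁻¹ : Rˣ) : R) • h) * g = 1 := by
      rw [Matrix.smul_mul, hhg, smul_smul, Units.inv_mul, one_smul]
    exact (Matrix.isUnit_iff_isUnit_det g).2 (Matrix.isUnit_det_of_left_inverse hleft)
  · rw [hexp y, Finset.sum_mul]
    conv_lhs => rw [Matrix.matrix_eq_sum_single (f₀ y)]
    rw [Finset.mul_sum]
    refine Finset.sum_congr rfl fun i _ => ?_
    rw [Finset.sum_mul, Finset.mul_sum]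
    refine Finset.sum_congr rfl fun j _ => ?_
    have h1 : Matrix.single i j ((f₀ y) i j) = (f₀ y) i j • Matrix.single i j (1 : R) := by
      rw [Matrix.smul_single, smul_eq_mul, mul_one]
    rw [h1, Matrix.mul_smul, hgE, Matrix.smul_mul, hFg]

end CarAlg

end Fermat.Agent.S59
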