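/-
S59, piece CAR (helper63): **Carayol's lemma for `GaloisRepAdic`** and the hypothesis `hcar` of
`S59/TopStep.lean`, `TopGood.lean`, `TopBase.lean`.

* `s59car_isEquiv_of_trace` : `ρ₁ ρ₀ : GaloisRepAdic A` (`A` any local ring), `ρ₀` residually
  absolutely irreducible, `tr ρ₁ = tr ρ₀` on `G_ℚ` ⇒ `ρ₁ ≅ ρ₀`
  (Burnside + Nakayama `S31.span_range_toMatrix_eq_top`, then `s59car_alg_conj`).
* `s59car_det_frob` : `det ρ(Frob_ℓ) = ℓ` for `ρ` with cyclotomic determinant (`ℓ ≠ p`).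
* `s59car_isEquiv_of_frob` : equal characteristic polynomials at the Frobenius elements outside a
  finite set ⇒ `ρ₁ ≅ ρ₀` (weak Chebotarev + Lucas: `EC.charpoly_eq_of_frobenius_of_noetherian`).
* **`s59car_hcar`** : the statement `hcar`.
-/
import Fermat.Agent.S59.Car.Alg
import Fermat.Agent.S31.TraceKernel
import Fermat.Agent.S31.Cyclo
import Fermat.Agent.S53.Matrix
import Fermat.Agent.EC.Cmp
import Fermat.Prelude.Def_GaloisRep_LocalConditions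

set_option autoImplicit false
set_option linter.style.longLine false
set_option linter.unusedVariables false
set_option linter.unusedSectionVars false

namespace Fermat.Agent.S59

open IsLocalRing Polynomial

/-- `G_ℚ` -/
local notation "CarG" => (AlgebraicClosure ℚ ≃ₐ[ℚ] AlgebraicClosure ℚ)

section Carayol

variable {A : Type} [CommRing A] [IsLocalRing A]

/-- **Carayol's lemma**: a representation over a local ring with the same trace as a residually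
absolutely irreducible one is equivalent to it. -/
theorem s59car_isEquiv_of_trace (ρ₁ ρ₀ : GaloisRepAdic A)
    (habs : ρ₀.residual.IsAbsolutelyIrreducible)
    (htr : ∀ σ : CarG, LinearMap.trace A ρ₁.V (ρ₁.ρ σ) = LinearMap.trace A ρ₀.V (ρ₀.ρ σ)) :
    ρ₁.IsEquiv ρ₀ := by
  classical
  set b₀ := Fermat.Agent.S53.someBasis ρ₀ with hb₀
  set b₁ := Fermat.Agent.S53.someBasis ρ₁ with hb₁
  set r₀ := Fermat.Agent.S53.matOfBasis ρ₀ b₀ with hr₀
  set r₁ := Fermat.Agent.S53.matOfBasis ρ₁ b₁ with hr₁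
  have hmtr : ∀ σ : CarG, (r₁ σ).trace = (r₀ σ).trace := by
    intro σ
    rw [hr₁, hr₀, Fermat.Agent.S53.matOfBasis_apply, Fermat.Agent.S53.matOfBasis_apply,
      ← LinearMap.trace_eq_matrix_trace A b₁, ← LinearMap.trace_eq_matrix_trace A b₀]
    exact htr σ
  obtain ⟨f₀, hf₀⟩ : ∃ f : MonoidAlgebra A CarG →ₐ[A] Matrix (Fin 2) (Fin 2) A,
      f = MonoidAlgebra.lift A (Matrix (Fin 2) (Fin 2) A) CarG r₀ := ⟨_, rfl⟩
  obtain ⟨f₁, hf₁⟩ : ∃ f : MonoidAlgebra A CarG →ₐ[A] Matrix (Fin 2) (Fin 2) A,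
      f = MonoidAlgebra.lift A (Matrix (Fin 2) (Fin 2) A) CarG r₁ := ⟨_, rfl⟩
  have hof₀ : ∀ σ : CarG, f₀ (MonoidAlgebra.of A CarG σ) = r₀ σ := by
    intro σ
    rw [hf₀, MonoidAlgebra.lift_of]
  have hof₁ : ∀ σ : CarG, f₁ (MonoidAlgebra.of A CarG σ) = r₁ σ := by
    intro σ
    rw [hf₁, MonoidAlgebra.lift_of]
  have hsurj : Function.Surjective f₀ := by
    have hspan := Fermat.Agent.S31.span_range_toMatrix_eq_top ρ₀ habs b₀
    have hle : Submodule.span A (Set.range fun g : CarG => LinearMap.toMatrix b₀ b₀ (ρ₀.ρ g)) ≤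
        LinearMap.range f₀.toLinearMap := by
      rw [Submodule.span_le]
      rintro _ ⟨g, rfl⟩
      exact ⟨MonoidAlgebra.of A CarG g, hof₀ g⟩
    rw [hspan] at hle
    intro Y
    obtain ⟨x, hx⟩ := hle (Submodule.mem_top (x := Y))
    exact ⟨x, hx⟩
  have hftr : ∀ x, (f₁ x).trace = (f₀ x).trace := by
    intro x
    rw [hf₁, hf₀, MonoidAlgebra.lift_apply, MonoidAlgebra.lift_apply, Finsupp.sum, Finsupp.sum,
      Matrix.trace_sum, Matrix.trace_sum]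
    refine Finset.sum_congr rfl fun σ _ => ?_
    rw [Matrix.trace_smul, Matrix.trace_smul, hmtr σ]
  obtain ⟨g, hg, hconj⟩ := s59car_alg_conj (0 : Fin 2) f₀ f₁ hsurj hftr
  have hC : Fermat.Agent.S53.Conj r₀ r₁ := ⟨g, hg, fun σ => by
    rw [← hof₀ σ, ← hof₁ σ]
    exact hconj _⟩
  have h01 := Fermat.Agent.S53.isEquiv_of_conj (Fermat.Agent.S53.matOfBasis_cont ρ₀ b₀)
    (Fermat.Agent.S53.matOfBasis_cont ρ₁ b₁) hC
  have e₀ : ρ₀.IsEquiv _ := ⟨Fermat.Agent.S53.equivOfBasis ρ₀ b₀⟩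
  have e₁ : ρ₁.IsEquiv _ := ⟨Fermat.Agent.S53.equivOfBasis ρ₁ b₁⟩
  exact Fermat.Agent.S53.GaloisRepAdic_isEquiv_trans e₁
    (Fermat.Agent.S53.GaloisRepAdic_isEquiv_trans
      (Fermat.Agent.S53.GaloisRepAdic_isEquiv_symm h01)
      (Fermat.Agent.S53.GaloisRepAdic_isEquiv_symm e₀))

/-- the characteristic polynomial of an endomorphism of a free module of rank `2` -/
theorem s59car_charpoly (ρ : GaloisRepAdic A) (σ : CarG) :
    LinearMap.charpoly (ρ.ρ σ) =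
      X ^ 2 - C (LinearMap.trace A ρ.V (ρ.ρ σ)) * X + C (LinearMap.det (ρ.ρ σ)) := by
  set b := Fermat.Agent.S53.someBasis ρ with hb
  rw [← LinearMap.charpoly_toMatrix (ρ.ρ σ) b, Matrix.charpoly_fin_two,
    ← LinearMap.trace_eq_matrix_trace A b, LinearMap.det_toMatrix b]

/-- the trace is a coefficient of the characteristic polynomial -/
theorem s59car_trace_eq_of_charpoly (ρ₁ ρ₀ : GaloisRepAdic A) (σ : CarG)
    (h : LinearMap.charpoly (ρ₁.ρ σ) = LinearMap.charpoly (ρ₀.ρ σ)) :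
    LinearMap.trace A ρ₁.V (ρ₁.ρ σ) = LinearMap.trace A ρ₀.V (ρ₀.ρ σ) := by
  rw [s59car_charpoly, s59car_charpoly] at h
  have h1 := congrArg (fun q : A[X] => q.coeff 1) h
  simp only [coeff_add, coeff_sub, coeff_X_pow, coeff_C_mul, coeff_X_one, coeff_C,
    mul_one] at h1
  norm_num at h1
  exact h1

end Carayol

section Frob

variable {𝒪 : Type} [CommRing 𝒪] [IsLocalRing 𝒪] [IsNoetherianRing 𝒪]

/-- `det ρ(Frob_ℓ) = ℓ` for a representation with cyclotomic determinant, `ℓ ≠ p`. -/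
theorem s59car_det_frob {p : ℕ} (hp : p.Prime) (ρ : GaloisRepAdic 𝒪) (hdet : ρ.DetIsCyclotomic p)
    {ℓ : ℕ} (hℓ : ℓ.Prime) (hℓp : ℓ ≠ p)
    (P : ValuationSubring (AlgebraicClosure ℚ)) (hP : P.LiesOverPrime ℓ) (φ : CarG)
    (hφ : P.IsFrobeniusAt φ ℓ) : LinearMap.det (ρ.ρ φ) = (ℓ : 𝒪) := by
  have hmem : ∀ n, LinearMap.det (ρ.ρ φ) - (ℓ : 𝒪) ∈ maximalIdeal 𝒪 ^ n := by
    intro n
    have h1 := hdet.2 n φ ℓ (fun μ hμ =>
      Fermat.Agent.S31.frob_rootOfUnity P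
        (Fermat.Agent.S31.natCast_pow_not_mem_nonunits P hp hℓ hℓp hP n)
        (pow_ne_zero n hp.ne_zero) hφ hμ)
    have h2 : Ideal.span {((p ^ n : ℕ) : 𝒪)} ≤ maximalIdeal 𝒪 ^ n := by
      rw [Ideal.span_singleton_le_iff_mem, Nat.cast_pow]
      exact Ideal.pow_mem_pow hdet.1 n
    exact h2 h1
  have h3 : LinearMap.det (ρ.ρ φ) - (ℓ : 𝒪) ∈ ⨅ n, maximalIdeal 𝒪 ^ n :=
    (Ideal.mem_iInf).mpr hmem
  rw [Ideal.iInf_pow_eq_bot_of_isLocalRing _ (Ideal.IsMaximal.ne_top inferInstance)] at h3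
  exact sub_eq_zero.mp h3

/-- **CAR, characteristic polynomial form**: two representations over a noetherian local ring
with the same characteristic polynomials at the Frobenius elements outside a finite set, one of
them residually absolutely irreducible, are equivalent. -/
theorem s59car_isEquiv_of_frob (ρ₁ ρ₀ : GaloisRepAdic 𝒪)
    (habs : ρ₀.residual.IsAbsolutelyIrreducible) (S : Finset ℕ)
    (h : ∀ ℓ : ℕ, ℓ.Prime → ℓ ∉ S →
      ∀ P : ValuationSubring (AlgebraicClosure ℚ), P.LiesOverPrime ℓ →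
        ∀ φ : CarG, P.IsFrobeniusAt φ ℓ →
          LinearMap.charpoly (ρ₁.ρ φ) = LinearMap.charpoly (ρ₀.ρ φ)) :
    ρ₁.IsEquiv ρ₀ :=
  s59car_isEquiv_of_trace ρ₁ ρ₀ habs fun σ =>
    s59car_trace_eq_of_charpoly ρ₁ ρ₀ σ
      (Fermat.Agent.EC.charpoly_eq_of_frobenius_of_noetherian ρ₁ ρ₀ S h σ)

/-- **CAR** = the hypothesis `hcar` of `s59tops_step_flat` (S59/TopStep.lean): a representation
with cyclotomic determinant and the Frobenius traces `ψ ℓ` outside a finite set is equivalent to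
`ρ₀`, if `ρ₀` is residually absolutely irreducible, has cyclotomic determinant and the Frobenius
traces `ψ ℓ` outside a finite set `S₀`. -/
theorem s59car_hcar {p : ℕ} (hp : p.Prime) (ψ : ℕ → 𝒪) (ρ₀ : GaloisRepAdic 𝒪)
    (habs : ρ₀.residual.IsAbsolutelyIrreducible) (hdet₀ : ρ₀.DetIsCyclotomic p)
    (S₀ : Finset ℕ)
    (htr₀ : ∀ ℓ : ℕ, ℓ.Prime → ℓ ∉ S₀ →
      ∀ P : ValuationSubring (AlgebraicClosure ℚ), P.LiesOverPrime ℓ →
      ∀ φ : AlgebraicClosure ℚ ≃ₐ[ℚ] AlgebraicClosure ℚ, P.IsFrobeniusAt φ ℓ →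
        LinearMap.trace 𝒪 ρ₀.V (ρ₀.ρ φ) = ψ ℓ) :
    ∀ (S' : Finset ℕ) (ρ₁ : GaloisRepAdic 𝒪), ρ₁.DetIsCyclotomic p →
      (∀ ℓ : ℕ, ℓ.Prime → ℓ ∉ S' →
        ∀ P : ValuationSubring (AlgebraicClosure ℚ), P.LiesOverPrime ℓ →
        ∀ φ : AlgebraicClosure ℚ ≃ₐ[ℚ] AlgebraicClosure ℚ, P.IsFrobeniusAt φ ℓ →
          LinearMap.trace 𝒪 ρ₁.V (ρ₁.ρ φ) = ψ ℓ) → ρ₁.IsEquiv ρ₀ := by
  intro S' ρ₁ hdet₁ htr₁
  refine s59car_isEquiv_of_frob ρ₁ ρ₀ habs (insert p (S' ∪ S₀)) ?_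
  intro ℓ hℓ hℓS P hP φ hφ
  have hℓp : ℓ ≠ p := fun h => hℓS (h ▸ Finset.mem_insert_self _ _)
  have hℓS' : ℓ ∉ S' := fun h =>
    hℓS (Finset.mem_insert_of_mem (Finset.mem_union_left _ h))
  have hℓS₀ : ℓ ∉ S₀ := fun h =>
    hℓS (Finset.mem_insert_of_mem (Finset.mem_union_right _ h))
  rw [s59car_charpoly, s59car_charpoly, htr₁ ℓ hℓ hℓS' P hP φ hφ, htr₀ ℓ hℓ hℓS₀ P hP φ hφ,
    s59car_det_frob hp ρ₁ hdet₁ hℓ hℓp P hP φ hφ, s59car_det_frob hp ρ₀ hdet₀ hℓ hℓp P hP φ hφ]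

end Frob

end Fermat.Agent.S59
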